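import Mathlib
import Fermat.Agent.S24.RHDeg

/-!
# S37 (HK): abstract Dedekind input for the norm formula

`A` a Dedekind domain, `y` a prime element of `A` with residue field `K` (algebraically closed),
`B/A` a finite extension of Dedekind domains all of whose non zero primes contain `y`.
Then `ord_y (N b) = ∑_w ord_w b`.
-/

set_option autoImplicit false

open IsDedekindDomain Fermat.Agent.S24RH

namespace Fermat.Agent.S37lib

theorem relNorm_eq_pow_sum_multiplicity {K A B : Type*} [Field K] [IsAlgClosed K] [CommRing A]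
    [CommRing B] [Algebra K A] [Algebra A B] [Algebra K B] [IsScalarTower K A B]
    [IsDedekindDomain A] [IsDedekindDomain B]
    [Module.Finite A B] [Module.IsTorsionFree A B] [PerfectField (FractionRing A)]
    (y : A) (hy : Prime y) (hconst : ∀ a : A, ∃ c : K, a - algebraMap K A c ∈ Ideal.span {y})
    (s : Finset (HeightOneSpectrum B)) (hs : ∀ w : HeightOneSpectrum B, w ∈ s)
    (hys : ∀ w : HeightOneSpectrum B, algebraMap A B y ∈ w.asIdeal)
    (I : Ideal B) (hI : I ≠ ⊥) :
    Ideal.relNorm A I = (Ideal.span {y}) ^ (∑ w ∈ s, multiplicity w.asIdeal I) := by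
  classical
  set p : Ideal A := Ideal.span {y} with hp
  have hp0 : p ≠ ⊥ := by
    rw [hp, Ne, Ideal.span_singleton_eq_bot]; exact hy.ne_zero
  have hpp : p.IsPrime := (Ideal.span_singleton_prime hy.ne_zero).2 hy
  have hpm : p.IsMaximal := hpp.isMaximal hp0
  induction I using UniqueFactorizationMonoid.induction_on_prime with
  | h₁ => exact absurd rfl hI
  | h₂ x hx =>
    have hx1 : x = 1 := by rwa [Ideal.isUnit_iff, ← Ideal.one_eq_top] at hx
    subst hx1
    rw [map_one]
    have : ∑ w ∈ s, multiplicity w.asIdeal (1 : Ideal B) = 0 := by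
      refine Finset.sum_eq_zero fun w _ => ?_
      refine multiplicity_eq_zero.2 (fun h => w.isPrime.ne_top ?_)
      exact Ideal.isUnit_iff.1 (isUnit_of_dvd_one h)
    rw [this, pow_zero]
  | h₃ J Q hJ hQ ih =>
    have hQ0 : Q ≠ ⊥ := hQ.ne_zero
    have hQp : Q.IsPrime := Ideal.isPrime_of_prime hQ
    have hQm : Q.IsMaximal := hQp.isMaximal hQ0
    let w₀ : HeightOneSpectrum B := ⟨Q, hQp, hQ0⟩
    have hlo : Q.LiesOver p := liesOver_span_of_mem y hy Q (hys w₀)
    have hin : Q.inertiaDeg A = 1 :=
      inertiaDeg_eq_one_of_const (K := K) p Q (exists_const_of_liesOver p hconst Q)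
    have hrel : Ideal.relNorm A Q = p := by
      rw [Ideal.relNorm_eq_pow_of_isMaximal Q p, hin, pow_one]
    have hmul : ∀ w : HeightOneSpectrum B, multiplicity w.asIdeal (Q * J)
        = (if w = w₀ then 1 else 0) + multiplicity w.asIdeal J := by
      intro w
      have hwp : Prime w.asIdeal := w.prime
      have hfin : FiniteMultiplicity w.asIdeal (Q * J) :=
        FiniteMultiplicity.of_prime_left hwp (mul_ne_zero hQ0 hJ)
      rw [multiplicity_mul hwp hfin]
      congr 1
      split_ifs with h
      · subst h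
        exact multiplicity_self
      · refine multiplicity_eq_zero.2 (fun hd => h ?_)
        have hle : Q ≤ w.asIdeal := Ideal.le_of_dvd hd
        exact HeightOneSpectrum.ext (hQm.eq_of_le w.isPrime.ne_top hle).symm
    rw [map_mul, hrel, ih hJ, Finset.sum_congr rfl (fun w _ => hmul w), Finset.sum_add_distrib,
      Finset.sum_ite_eq' s w₀, if_pos (hs w₀), pow_add, pow_one]

/-- `ord_y (N b) = ∑_w ord_w b` for `b ∈ B`. -/
theorem sum_valuation_intNorm {K A B F F' : Type*} [Field K] [IsAlgClosed K] [CommRing A]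
    [CommRing B] [Algebra K A] [Algebra A B] [Algebra K B] [IsScalarTower K A B]
    [IsDedekindDomain A] [IsDedekindDomain B]
    [Module.Finite A B] [Module.IsTorsionFree A B] [PerfectField (FractionRing A)]
    [Field F] [Field F'] [Algebra A F] [IsFractionRing A F] [Algebra F F'] [Algebra A F']
    [IsScalarTower A F F'] [Algebra B F'] [IsScalarTower A B F'] [IsIntegralClosure B A F']
    [FiniteDimensional F F'] [IsFractionRing B F']
    (vA : HeightOneSpectrum A)
    (y : A) (hy : Prime y) (hvA : vA.asIdeal = Ideal.span {y})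
    (hconst : ∀ a : A, ∃ c : K, a - algebraMap K A c ∈ Ideal.span {y})
    (s : Finset (HeightOneSpectrum B)) (hs : ∀ w : HeightOneSpectrum B, w ∈ s)
    (hys : ∀ w : HeightOneSpectrum B, algebraMap A B y ∈ w.asIdeal)
    (b : B) (hb : b ≠ 0) :
    ∑ w ∈ s, -(WithZero.log (w.valuation F' (algebraMap B F' b)))
      = -(WithZero.log (vA.valuation F (Algebra.norm F (algebraMap B F' b)))) := by
  classical
  have hI : Ideal.span {b} ≠ ⊥ := by rwa [Ne, Ideal.span_singleton_eq_bot]
  have h1 := relNorm_eq_pow_sum_multiplicity (K := K) y hy hconst s hs hys _ hI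
  rw [Ideal.relNorm_singleton] at h1
  have hbF : algebraMap B F' b ≠ 0 := by simpa using hb
  have hn0 : Algebra.intNorm A B b ≠ 0 := by
    intro h
    have h2 := Algebra.algebraMap_intNorm (A := A) (K := F) (L := F') (B := B) b
    rw [h, map_zero] at h2
    exact Algebra.norm_ne_zero_iff.2 hbF h2.symm
  have hp0 : Ideal.span {y} ≠ (0 : Ideal A) := by
    rw [Ne, Ideal.zero_eq_bot, Ideal.span_singleton_eq_bot]; exact hy.ne_zero
  have hpu : ¬ IsUnit (Ideal.span {y} : Ideal A) := by
    rw [Ideal.isUnit_iff, ← hvA]; exact vA.isPrime.ne_top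
  rw [← Algebra.algebraMap_intNorm (A := A) (K := F) (L := F') (B := B) b,
    HeightOneSpectrum.valuation_of_algebraMap,
    HeightOneSpectrum.intValuation_eq_exp_neg_multiplicity _ hn0, WithZero.log_exp, hvA, h1,
    multiplicity_pow_self hp0 hpu]
  push_cast
  rw [neg_neg]
  refine Finset.sum_congr rfl fun w _ => ?_
  rw [HeightOneSpectrum.valuation_of_algebraMap,
    HeightOneSpectrum.intValuation_eq_exp_neg_multiplicity _ hb, WithZero.log_exp, neg_neg]

/-- `ord_y (N x) = ∑_w ord_w x` for `x ∈ F'ˣ`. -/
theorem sum_valuation_norm {K A B F F' : Type*} [Field K] [IsAlgClosed K] [CommRing A]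
    [CommRing B] [Algebra K A] [Algebra A B] [Algebra K B] [IsScalarTower K A B]
    [IsDedekindDomain A] [IsDedekindDomain B]
    [Module.Finite A B] [Module.IsTorsionFree A B] [PerfectField (FractionRing A)]
    [Field F] [Field F'] [Algebra A F] [IsFractionRing A F] [Algebra F F'] [Algebra A F']
    [IsScalarTower A F F'] [Algebra B F'] [IsScalarTower A B F'] [IsIntegralClosure B A F']
    [FiniteDimensional F F'] [IsFractionRing B F']
    (vA : HeightOneSpectrum A)
    (y : A) (hy : Prime y) (hvA : vA.asIdeal = Ideal.span {y})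
    (hconst : ∀ a : A, ∃ c : K, a - algebraMap K A c ∈ Ideal.span {y})
    (s : Finset (HeightOneSpectrum B)) (hs : ∀ w : HeightOneSpectrum B, w ∈ s)
    (hys : ∀ w : HeightOneSpectrum B, algebraMap A B y ∈ w.asIdeal)
    (x : F') (hx : x ≠ 0) :
    ∑ w ∈ s, -(WithZero.log (w.valuation F' x))
      = -(WithZero.log (vA.valuation F (Algebra.norm F x))) := by
  obtain ⟨a, b, hb, rfl⟩ := IsFractionRing.div_surjective (A := B) x
  have hb0 : b ≠ 0 := nonZeroDivisors.ne_zero hb
  have ha0 : a ≠ 0 := by
    rintro rfl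
    simp at hx
  have haF : algebraMap B F' a ≠ 0 := by simpa using ha0
  have hbF : algebraMap B F' b ≠ 0 := by simpa using hb0
  have h1 := sum_valuation_intNorm (K := K) (F := F) (F' := F') vA y hy hvA hconst s hs hys a ha0
  have h2 := sum_valuation_intNorm (K := K) (F := F) (F' := F') vA y hy hvA hconst s hs hys b hb0
  have hNa : Algebra.norm F (algebraMap B F' a) ≠ 0 := Algebra.norm_ne_zero_iff.2 haF
  have hNb : Algebra.norm F (algebraMap B F' b) ≠ 0 := Algebra.norm_ne_zero_iff.2 hbF
  set x : F' := algebraMap B F' a / algebraMap B F' b with hxdef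
  have hxb : algebraMap B F' a = x * algebraMap B F' b := by
    rw [hxdef, div_mul_cancel₀ _ hbF]
  have hNx : Algebra.norm F x ≠ 0 := Algebra.norm_ne_zero_iff.2 hx
  have h3 : WithZero.log (vA.valuation F (Algebra.norm F (algebraMap B F' a)))
      = WithZero.log (vA.valuation F (Algebra.norm F x))
        + WithZero.log (vA.valuation F (Algebra.norm F (algebraMap B F' b))) := by
    rw [hxb, map_mul, map_mul, WithZero.log_mul ((Valuation.ne_zero_iff _).2 hNx)
      ((Valuation.ne_zero_iff _).2 hNb)]
  have h4 : ∑ w ∈ s, -(WithZero.log (w.valuation F' (algebraMap B F' a)))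
      = ∑ w ∈ s, -(WithZero.log (w.valuation F' x))
        + ∑ w ∈ s, -(WithZero.log (w.valuation F' (algebraMap B F' b))) := by
    rw [← Finset.sum_add_distrib]
    refine Finset.sum_congr rfl fun w _ => ?_
    rw [hxb, map_mul, WithZero.log_mul ((Valuation.ne_zero_iff _).2 hx)
      ((Valuation.ne_zero_iff _).2 hbF)]
    ring
  linarith

end Fermat.Agent.S37lib
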