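import Mathlib
import Fermat.Agent.S37.HK.FFNorm
import Fermat.Prelude.Def_AlgebraicCurve_Correspondence

/-!
# S37 (HK): general function field theory

`K` algebraically closed of characteristic zero, `F`, `F'` function fields in one variable.
For a finite extension `F'/F` and a place `v` of `F`: the finite set of places above `v`, the
fundamental identity and the norm formula (`exists_fibre_data`).
-/

set_option autoImplicit false

open AlgebraicCurve IsDedekindDomain IsLocalRing Fermat.Agent.S24RH

namespace Fermat.Agent.S37lib

variable {K F F' : Type*} [Field K] [Field F] [Field F'] [Algebra K F] [Algebra K F']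

section Local

variable [Algebra F F'] [IsScalarTower K F F'] [FiniteDimensional F F']

theorem exists_fibre_data [IsAlgClosed K] [CharZero K] (hFF : IsFF K F) (v : Place K F) :
    ∃ t : Finset (Place K F'), (∀ w, w ∈ t ↔ w.restrict F = v) ∧
      (∑ w ∈ t, (w.ramificationIndex F : ℤ) = Module.finrank F F') ∧
      ∀ x : F', x ≠ 0 → ∑ w ∈ t, w.ord x = v.ord (Algebra.norm F x) := by
  classical
  have hcF : CharZero F := charZero_of_injective_algebraMap (algebraMap K F).injective
  let A := v.toValuationSubring
  let _ : Algebra A F' := ((algebraMap F F').comp (algebraMap A F)).toAlgebra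
  have : IsScalarTower A F F' := IsScalarTower.of_algebraMap_eq (fun _ => rfl)
  have : IsScalarTower K A F' := IsScalarTower.of_algebraMap_eq (fun a => by
    rw [IsScalarTower.algebraMap_apply K F F']; rfl)
  have hinjA : Function.Injective (algebraMap A F') :=
    (algebraMap F F').injective.comp Subtype.val_injective
  have : FaithfulSMul A F' := (faithfulSMul_iff_algebraMap_injective A F').2 hinjA
  let B := integralClosure A F'
  have : IsDedekindDomain B := integralClosure.isDedekindDomain A F F'
  have : IsFractionRing B F' := integralClosure.isFractionRing_of_finite_extension F F'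
  have : Module.Finite A B := IsIntegralClosure.finite A F F' B
  have hrank : Module.finrank A B = Module.finrank F F' := IsIntegralClosure.rank A F F' B
  have : FaithfulSMul A B := by
    rw [faithfulSMul_iff_algebraMap_injective]
    intro a b h
    exact hinjA (congrArg (fun z : B => (z : F')) h)
  have hcA : CharZero A := charZero_of_injective_algebraMap (algebraMap K A).injective
  have : CharZero (FractionRing A) :=
    charZero_of_injective_algebraMap (IsFractionRing.injective A (FractionRing A))
  obtain ⟨π, hπ⟩ := IsDiscreteValuationRing.exists_irreducible A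
  have hy : Prime π := hπ.prime
  have hmax : maximalIdeal A = Ideal.span {π} := hπ.maximalIdeal_eq
  have hconst : ∀ a : A, ∃ c : K, a - algebraMap K A c ∈ Ideal.span {π} := by
    intro a
    obtain ⟨c, hc⟩ := exists_const hFF v a.2
    refine ⟨c, ?_⟩
    rw [← hmax]
    by_cases h0 : a - algebraMap K A c = 0
    · rw [h0]; exact zero_mem _
    rcases hc with hc | hc
    · exact absurd (sub_eq_zero.2 (Subtype.ext hc)) h0
    · exact (ord_pos_iff_mem_maximalIdeal v _ h0).1 hc
  obtain ⟨s, hs, hsum⟩ := sum_valuation_eq_finrank (K := K) (A := A) (B := B) (F := F') π hy hconst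
  have hys : ∀ w : HeightOneSpectrum B, algebraMap A B π ∈ w.asIdeal := by
    intro w
    have h1 : w.asIdeal.comap (algebraMap A B) ≠ ⊥ :=
      Ideal.IsIntegral.comap_ne_bot (R := A) w.ne_bot
    have h2 : (w.asIdeal.comap (algebraMap A B)).IsPrime := Ideal.comap_isPrime _ _
    have h3 := IsLocalRing.eq_maximalIdeal (h2.isMaximal h1)
    have h4 : π ∈ w.asIdeal.comap (algebraMap A B) := by
      rw [h3, hmax]; exact Ideal.mem_span_singleton_self π
    exact h4
  have hsall : ∀ w : HeightOneSpectrum B, w ∈ s := fun w => (hs w).2 (hys w)
  have hnorm := sum_valuation_norm (K := K) (A := A) (B := B) (F := F) (F' := F')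
    v.heightOneSpectrum π hy (by rw [Place.heightOneSpectrum_asIdeal, hmax]) hconst s hsall hys
  -- the places above `v`
  have hres : ∀ w : HeightOneSpectrum B, (Place.ofHeightOneSpectrum (K := K) (F := F') w).restrict F = v := by
    intro w
    symm
    apply place_ext_of_le
    intro a ha
    rw [Place.restrict_toValuationSubring, ValuationSubring.mem_comap,
      Place.ofHeightOneSpectrum_toValuationSubring, Valuation.mem_valuationSubring_iff]
    exact w.valuation_le_one (algebraMap A B ⟨a, ha⟩)
  have hex : ∀ w' : Place K F', w'.restrict F = v →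
      ∃ w : HeightOneSpectrum B, Place.ofHeightOneSpectrum (K := K) w = w' := by
    intro w' hw'
    apply exists_heightOneSpectrum (R := B) w'
    intro b
    have hA : ∀ a : A, algebraMap A F' a ∈ w'.toValuationSubring := by
      intro a
      have h1 : (a : F) ∈ (w'.restrict F).toValuationSubring := by rw [hw']; exact a.2
      exact h1
    let φ : A →+* w'.toValuationSubring :=
      (algebraMap A F').codRestrict w'.toValuationSubring.toSubring hA
    have h1 : IsIntegral w'.toValuationSubring (b : F') :=
      (b.2 : IsIntegral A (b : F')).map_of_comp_eq φ (RingHom.id F') (by ext; rfl)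
    obtain ⟨z, hz⟩ :=
      (IsIntegrallyClosed.isIntegral_iff (R := w'.toValuationSubring) (K := F')).1 h1
    show (b : F') ∈ w'.toValuationSubring
    rw [← hz]
    exact z.2
  refine ⟨s.image (Place.ofHeightOneSpectrum (K := K)), ?_, ?_, ?_⟩
  · intro w'
    simp only [Finset.mem_image]
    constructor
    · rintro ⟨w, -, rfl⟩
      exact hres w
    · intro h
      obtain ⟨w, rfl⟩ := hex w' h
      exact ⟨w, hsall w, rfl⟩
  · rw [Finset.sum_image (fun a _ b _ h => ofHeightOneSpectrum_injective h), ← hrank, ← hsum]
    refine Finset.sum_congr rfl fun w _ => ?_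
    have h1 := (Place.ofHeightOneSpectrum (K := K) (F := F') w).ord_restrict (F := F) (π : F)
    rw [hres w, v.ord_coe_irreducible hπ, mul_one, ord_ofHeightOneSpectrum] at h1
    rw [← h1]
    rfl
  · intro x hx
    rw [Finset.sum_image (fun a _ b _ h => ofHeightOneSpectrum_injective h)]
    rw [Finset.sum_congr rfl (fun w _ => ord_ofHeightOneSpectrum (K := K) w x), hnorm x hx]
    rfl

end Local

end Fermat.Agent.S37lib
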